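-- Statement S02: a solution of a^p + b^p = c^p in nonzero integers (p >= 5 prime) yields a Frey package.
import Fermat.Statements.S02

set_option autoImplicit false
open FreyPackage

namespace Fermat.Agent.S02

/-- Core case: coprime, `a` odd and `b` even. -/
theorem of_odd_even {a b c : ℤ} (ha : a ≠ 0) (hb : b ≠ 0) (hc : c ≠ 0) (p : ℕ) (pp : p.Prime)
    (hp5 : 5 ≤ p) (H : a ^ p + b ^ p = c ^ p) (hab : gcd a b = 1) (ha2 : Odd a) (hb2 : Even b) :
    Nonempty FreyPackage := by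
  have hpodd : Odd p := pp.odd_of_ne_two (by omega)
  have hbz : ∀ x : ℤ, Even x → (x : ZMod 2) = 0 := fun x hx =>
    (ZMod.intCast_zmod_eq_zero_iff_dvd x 2).2 hx.two_dvd
  have h4 : a % 4 = 1 ∨ a % 4 = 3 := Int.odd_iff.1 ha2 |> fun h => by omega
  rcases h4 with h1 | h3
  · -- a = 1 mod 4 : negate everything
    refine ⟨⟨-a, -b, -c, neg_ne_zero.2 ha, neg_ne_zero.2 hb, neg_ne_zero.2 hc, p, pp, hp5, ?_, ?_,
      ?_, ?_⟩⟩
    · rw [hpodd.neg_pow, hpodd.neg_pow, hpodd.neg_pow, ← H]; ring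
    · rw [gcd_neg, neg_gcd]; exact hab
    · have : ((-a : ℤ) : ZMod 4) = ((3 : ℤ) : ZMod 4) := by
        rw [ZMod.intCast_eq_intCast_iff]
        show (-a) % 4 = 3 % 4
        omega
      simpa using this
    · simpa using hbz b hb2
  · refine ⟨⟨a, b, c, ha, hb, hc, p, pp, hp5, H, hab, ?_, hbz b hb2⟩⟩
    have : ((a : ℤ) : ZMod 4) = ((3 : ℤ) : ZMod 4) := by
      rw [ZMod.intCast_eq_intCast_iff]
      show a % 4 = 3 % 4
      omega
    simpa using this

/-- Coprime case. -/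
theorem of_coprime {a b c : ℤ} (ha : a ≠ 0) (hb : b ≠ 0) (hc : c ≠ 0) (p : ℕ) (pp : p.Prime)
    (hp5 : 5 ≤ p) (H : a ^ p + b ^ p = c ^ p) (hab : gcd a b = 1) :
    Nonempty FreyPackage := by
  have hpodd : Odd p := pp.odd_of_ne_two (by omega)
  have hp0 : p ≠ 0 := by omega
  have hppos : 0 < p := by omega
  have hnot : ¬ (Even a ∧ Even b) := by
    rintro ⟨h1, h2⟩
    have : (2 : ℤ) ∣ gcd a b := dvd_gcd h1.two_dvd h2.two_dvd
    rw [hab] at this
    exact absurd this (by decide)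
  by_cases hb2 : Even b
  · have ha2 : Odd a := by
      rw [← Int.not_even_iff_odd]
      exact fun h => hnot ⟨h, hb2⟩
    exact of_odd_even ha hb hc p pp hp5 H hab ha2 hb2
  · by_cases ha2 : Even a
    · have hb2' : Odd b := Int.not_even_iff_odd.1 hb2
      refine of_odd_even hb ha hc p pp hp5 ?_ ?_ hb2' ha2
      · rw [add_comm]; exact H
      · rw [gcd_comm]; exact hab
    · -- both odd : c is even
      have ha2' : Odd a := Int.not_even_iff_odd.1 ha2
      have hb2' : Odd b := Int.not_even_iff_odd.1 hb2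
      have hc2 : Even c := by
        have : Even (c ^ p) := by
          rw [← H]
          exact Odd.add_odd (ha2'.pow) (hb2'.pow)
        exact (Int.even_pow.1 this).1
      refine of_odd_even ha (neg_ne_zero.2 hc) (neg_ne_zero.2 hb) p pp hp5 ?_ ?_ ha2' hc2.neg
      · rw [hpodd.neg_pow, hpodd.neg_pow, ← H]; ring
      · rw [gcd_neg, ← gcdab_eq_gcdac hppos H]; exact hab

theorem result (a b c : ℤ) (ha : a ≠ 0) (hb : b ≠ 0) (hc : c ≠ 0) (p : ℕ) (pp : p.Prime) (hp5 : 5 ≤ p) (H : a ^ p + b ^ p = c ^ p) : Nonempty FreyPackage := by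
  have hp0 : p ≠ 0 := by omega
  have hgpos : 0 < Int.gcd a b := Int.gcd_pos_of_ne_zero_left b ha
  obtain ⟨a1, b1, h1, hae, hbe⟩ := Int.exists_gcd_one hgpos
  set d : ℤ := (Int.gcd a b : ℤ) with hd
  have hd0 : d ≠ 0 := by
    rw [hd]; exact_mod_cast hgpos.ne'
  have hdc : d ∣ c := by
    rw [← Int.pow_dvd_pow_iff hp0, ← H]
    refine dvd_add ?_ ?_
    · rw [Int.pow_dvd_pow_iff hp0]; exact Int.gcd_dvd_left a b
    · rw [Int.pow_dvd_pow_iff hp0]; exact Int.gcd_dvd_right a b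
  obtain ⟨c1, hce⟩ := hdc
  have ha1 : a1 ≠ 0 := by
    rintro rfl; apply ha; rw [hae]; ring
  have hb1 : b1 ≠ 0 := by
    rintro rfl; apply hb; rw [hbe]; ring
  have hc1 : c1 ≠ 0 := by
    rintro rfl; apply hc; rw [hce]; ring
  have H1 : a1 ^ p + b1 ^ p = c1 ^ p := by
    have hdp : d ^ p ≠ 0 := pow_ne_zero p hd0
    apply mul_left_cancel₀ hdp
    calc d ^ p * (a1 ^ p + b1 ^ p) = (a1 * d) ^ p + (b1 * d) ^ p := by ring
      _ = a ^ p + b ^ p := by rw [← hae, ← hbe]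
      _ = c ^ p := H
      _ = (d * c1) ^ p := by rw [← hce]
      _ = d ^ p * c1 ^ p := by ring
  refine of_coprime ha1 hb1 hc1 p pp hp5 H1 ?_
  rw [← Int.coe_gcd, h1]; rfl

end Fermat.Agent.S02
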