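import Fermat.Statements.S05
import Fermat.Agent.S05.Glue
import Fermat.Agent.S05.FreyData

set_option autoImplicit false
open WeierstrassCurve WeierstrassCurve.Affine WeierstrassCurve.Affine.Point
open CuspForm ModularFormClass UpperHalfPlane
open FreyPackage

namespace Fermat.Agent.S05

theorem result (P : FreyPackage) {q : ℕ} (hq : q.Prime) (hq2 : q ≠ 2) (hqp : q ≠ P.p) : P.GaloisRepUnramifiedAt q := by
  intro A hA σ hσ x
  obtain ⟨e, m, g, d, ε, hε, hg0, -, hqd, he, hM, hC, hdisc⟩ := frey_local_data P hq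
  have hx := x.2
  rw [Submodule.mem_torsionBy_iff, natCast_zsmul] at hx
  apply Subtype.ext
  exact glue_fixed P.freyCurve rfl rfl rfl hq hq2 P.pp hqp P.hp_odd e m g d ε hε hg0 hqd
    he hM hC hdisc A hA σ hσ x.1 hx

end Fermat.Agent.S05
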