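-- Statement S07: every weight-2 cusp form of level Gamma0(2) is zero.
-- Proof: the Sturm bound of the prelude for Gamma0(2) in weight 2 is zero (the index is at most 4),
-- so only the constant coefficient has to vanish, and it does for a cusp form.
import Fermat.Statements.S07
import Fermat.Agent.Lib.CuspFormSturm

set_option autoImplicit false
open WeierstrassCurve WeierstrassCurve.Affine WeierstrassCurve.Affine.Point
open CuspForm ModularFormClass UpperHalfPlane
open ModularForm

namespace Fermat.Agent.S07

theorem result (f : CuspForm (CongruenceSubgroup.Gamma0 2) 2) : f = 0 := by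
  apply Fermat.Agent.Lib.CuspFormSturm.cuspForm_eq_zero_of_sturm_zero 2
  have h := Fermat.Agent.Lib.CuspFormSturm.index_Gamma0_two_le
  omega

end Fermat.Agent.S07
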