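-- Statement S11: proved by contradiction from Fermat's Last Theorem for the exponents 5, 7, 11, 13
-- (Kummer: Fermat.Agent.Kummer.flt_small), since a Frey package with such an exponent cannot exist.
import Fermat.Statements.S11
import Fermat.Agent.Kummer.FLTSmall

set_option autoImplicit false
open WeierstrassCurve WeierstrassCurve.Affine WeierstrassCurve.Affine.Point
open CuspForm ModularFormClass UpperHalfPlane
open FreyPackage

namespace Fermat.Agent.S11

theorem result (P : FreyPackage) (hp : P.p = 11) : ¬ HasGaloisStableCofixedLine (K := AlgebraicClosure ℚ) ℚ P.freyCurve P.p := by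
  exfalso
  have hgcd : IsCoprime P.a P.b := by
    rw [Int.isCoprime_iff_gcd_eq_one]
    have h := P.hgcdab
    rw [← Int.coe_gcd] at h
    exact_mod_cast h
  exact Fermat.Agent.Kummer.flt_small P.p
    (by simp [hp])
    P.a P.b P.c P.ha0 P.hb0 P.hc0 hgcd P.hFLT

end Fermat.Agent.S11
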