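import Fermat.Statements.S13
import Fermat.Agent.S13.Assembly
import Fermat.Agent.S13.DivPoly
import Fermat.Agent.S13.DivPolyInt
import Fermat.Agent.S13.DivPolyGen
import Fermat.Agent.S13.AtP
import Fermat.Agent.S13.Two
import Fermat.Agent.S13.RatTors

set_option autoImplicit false
open WeierstrassCurve WeierstrassCurve.Affine WeierstrassCurve.Affine.Point
open CuspForm ModularFormClass UpperHalfPlane
open FreyPackage

namespace Fermat.Agent.S13

theorem result (P : FreyPackage) (hred : ¬ GaloisRepIsIrreducible (K := AlgebraicClosure ℚ) ℚ P.freyCurve P.p) : HasGaloisStableCofixedLine (K := AlgebraicClosure ℚ) ℚ P.freyCurve P.p := by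
  have hp2 : P.p ≠ 2 := by
    have := P.hp5
    omega
  have hpF : ((P.p : ℕ) : AlgebraicClosure ℚ) ≠ 0 := Nat.cast_ne_zero.mpr P.hp0
  have hΔ : (P.freyCurve⁄(AlgebraicClosure ℚ)).Δ ≠ 0 := (asm_frey_isElliptic P).isUnit.ne_zero
  have hco := asm_frey_coeff_mem P
  have h₃ : (P.freyCurve⁄(AlgebraicClosure ℚ)).a₃ = 0 := by
    show algebraMap ℚ (AlgebraicClosure ℚ) P.freyCurve.a₃ = 0
    have : P.freyCurve.a₃ = 0 := rfl
    rw [this, _root_.map_zero]
  have h₆ : (P.freyCurve⁄(AlgebraicClosure ℚ)).a₆ = 0 := by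
    show algebraMap ℚ (AlgebraicClosure ℚ) P.freyCurve.a₆ = 0
    have : P.freyCurve.a₆ = 0 := rfl
    rw [this, _root_.map_zero]
  have h2A : ∀ A : ValuationSubring (AlgebraicClosure ℚ), A.LiesOverPrime 2 →
      (2 : AlgebraicClosure ℚ) ∈ A.nonunits := by
    intro A hA
    have h : ((2 : ℕ) : AlgebraicClosure ℚ) ∈ A.nonunits := hA
    rwa [Nat.cast_ofNat] at h
  exact asm_main P
    (dp_finite_torsion _ P.pp hp2 hpF)
    (dp_card_torsion_le _ P.pp hp2 hpF)
    (dpe_exists_torsion_of _ hΔ h₃ h₆ (dp_genericFormula _) P.pp hp2)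
    (fun A hA x y h hT =>
      (dp_mem_of_torsion _ A (hco A).1 (hco A).2.1 (hco A).2.2.1 (hco A).2.2.2.1
        (hco A).2.2.2.2 P.pp hp2 hA h hT).1)
    (fun A hA hc N hN hNc =>
      dp_exists_integral_torsion P.freyCurve P.pp hp2 A hA
        (hco A).1 (hco A).2.1 (hco A).2.2.1 (hco A).2.2.2.1 (hco A).2.2.2.2 hc N hN hNc)
    (fun A hA hTI σ hσ T hT =>
      unipotent_two P A (h2A A hA)
        (fun x y h hx => (A.valuation_le_one_iff x).mpr (hTI x y h hx)) σ hσ T hT)
    (fun A hA hTI T hT hfix =>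
      no_rational_torsion P A (h2A A hA)
        (fun x y h hx => (A.valuation_le_one_iff x).mpr (hTI x y h hx)) T hT hfix)
    (fun A hA hc N hN hNc hDP => inertia_at_p' P A hA hc N hN hNc hDP)
    hred

end Fermat.Agent.S13
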