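-- Statement S14: see Fermat/Templates/S14.lean.txt
import Fermat.Statements.S14
import Fermat.Agent.S14.Rep
import Fermat.Agent.S14.Tower
import Fermat.Agent.S14.Core

set_option autoImplicit false
open ExtCitation

namespace Fermat.Agent.S14

theorem result {p : ℕ} [Fact p.Prime] (h3 : 3 ≤ p) :
    ExtCitation.ExtVanishingCts p := by
  intro V _ _ _ _ C hadm
  by_contra hns
  obtain ⟨H, hn, ho, hle, hidx, hconj, hin⟩ := exists_subgroup_of_not_split h3 V C hadm hns
  obtain ⟨K, L, _, _, _, _, _, hT⟩ := exists_tower_of_subgroup h3 H hn ho hle hidx hconj hin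
  exact no_tower p K L h3 hT

end Fermat.Agent.S14
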