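import Fermat.Statements.S21
import Fermat.Agent.S20.FinalDim
import Fermat.Agent.S20.Hom
import Fermat.Agent.S20.Period
import Fermat.Agent.S20.PeriodInj

set_option autoImplicit false
open ModularCurve

namespace Fermat.Agent.S21

open Fermat.Agent.S20 ModularCurve.Period CongruenceSubgroup

theorem result (N : ℕ) [NeZero N] :
    Function.Injective (ModularCurve.periodHomPair N)
      ∧ LinearMap.range (ModularCurve.periodHomPair N)
          = ModularCurve.Period.parabolicHoms ℂ (CongruenceSubgroup.Gamma0 N) ℂ := by
  obtain ⟨pml, hpml, hdef⟩ := periodHomPair_def N (existsPeriodMapLinear N)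
  have hι : ∀ ψ : Additive (Gamma0 N) →+ ℂ,
      charInvolution N ℂ ℂ (charInvolution N ℂ ℂ ψ) = ψ := charInvolution_charInvolution N ℂ ℂ
  have happ : ∀ f g : CuspForm (Gamma0 N) 2, periodHomPair N (f, g) =
      (periodMap N f + charInvolution N ℂ ℂ (periodMap N f)) +
        (periodMap N g - charInvolution N ℂ ℂ (periodMap N g)) := by
    intro f g
    rw [hdef]
    simp [LinearMap.coprod_apply, hpml]
  have hinj : Function.Injective (ModularCurve.periodHomPair N) := by
    rw [injective_iff_map_eq_zero]
    rintro ⟨f, g⟩ h
    rw [happ] at h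
    have h1 := congrArg (charInvolution N ℂ ℂ) h
    rw [map_add, map_add, map_sub, hι, hι, map_zero] at h1
    have hf : periodMap N f + charInvolution N ℂ ℂ (periodMap N f) = 0 := by
      have h2 : (2 : ℂ) • (periodMap N f + charInvolution N ℂ ℂ (periodMap N f)) = 0 := by
        rw [two_smul]
        have := congrArg₂ (· + ·) h h1
        simp only [add_zero] at this
        rw [← this]; abel
      exact (smul_eq_zero.mp h2).resolve_left two_ne_zero
    have hg : periodMap N g - charInvolution N ℂ ℂ (periodMap N g) = 0 := by
      have h2 : (2 : ℂ) • (periodMap N g - charInvolution N ℂ ℂ (periodMap N g)) = 0 := by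
        rw [two_smul]
        have := congrArg₂ (· - ·) h h1
        simp only [sub_zero] at this
        rw [← this]; abel
      exact (smul_eq_zero.mp h2).resolve_left two_ne_zero
    rw [eq_zero_of_periodMap_add_charInvolution N f hf,
      eq_zero_of_periodMap_sub_charInvolution N g hg]
    rfl
  refine ⟨hinj, ?_⟩
  have hle : LinearMap.range (periodHomPair N) ≤ parabolicHoms ℂ (Gamma0 N) ℂ := by
    rintro _ ⟨⟨f, g⟩, rfl⟩
    rw [happ]
    have hf := periodMap_mem_parabolicHoms N f
    have hg := periodMap_mem_parabolicHoms N g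
    exact add_mem (add_mem hf (charInvolution_mem_parabolicHoms N ℂ ℂ hf))
      (sub_mem hg (charInvolution_mem_parabolicHoms N ℂ ℂ hg))
  have hfin : Module.Finite ℂ (parabolicHoms ℂ (Gamma0 N) ℂ) := finite_parabolicHoms N
  -- the source is finite dimensional, being embedded in `parabolicHoms`
  let φ : (CuspForm (Gamma0 N) 2 × CuspForm (Gamma0 N) 2) →ₗ[ℂ] parabolicHoms ℂ (Gamma0 N) ℂ :=
    (periodHomPair N).codRestrict _ (fun x => hle (LinearMap.mem_range_self _ x))
  have hφ : Function.Injective φ := by
    intro x y hxy
    apply hinj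
    have := congrArg Subtype.val hxy
    exact this
  have hfin2 : Module.Finite ℂ (CuspForm (Gamma0 N) 2 × CuspForm (Gamma0 N) 2) :=
    Module.Finite.of_injective φ hφ
  have hfin1 : Module.Finite ℂ (CuspForm (Gamma0 N) 2) :=
    Module.Finite.of_injective (LinearMap.inl ℂ (CuspForm (Gamma0 N) 2) (CuspForm (Gamma0 N) 2))
      LinearMap.inl_injective
  have hrk : Module.finrank ℂ (LinearMap.range (periodHomPair N)) =
      2 * Module.finrank ℂ (CuspForm (Gamma0 N) 2) := by
    rw [LinearMap.finrank_range_of_inj hinj, Module.finrank_prod, two_mul]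
  have h12 := final_twelve_finrank_eq_genusNum N
  have h6 := six_finrank_parabolicHoms_le N
  refine Submodule.eq_of_le_of_finrank_le hle ?_
  rw [hrk]
  omega

end Fermat.Agent.S21
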