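import Fermat.Statements.S16
import Fermat.Agent.S16.Defs
import Fermat.Agent.S16.Small
import Fermat.Agent.S16.EisP
import Fermat.Agent.S16.Reduction
import Fermat.Agent.S16.LowerShimura
import Fermat.Agent.S16.Upper

set_option autoImplicit false
open ModularCurve CuspForm
open ModularCurve

namespace Fermat.Agent.S16

open ModularFormClass CongruenceSubgroup in
theorem glue_redSigma_eq (p i : ℕ) (hp : p ≠ 0) (hi : i ≠ 0) : redSigma p i = (sigmaP p i : ℤ) := by
  have h := eisP_sigma_eq p i hp hi
  unfold redSigma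
  have h2 : (eisPSigma p i : ℤ) = (sigmaP p i : ℤ) := rfl
  rw [← h2, ← h]
  split_ifs <;> ring

open ModularFormClass CongruenceSubgroup in
theorem result
    (p : ℕ) [Fact p.Prime] :
    Nat.card (↥(heckeLatticeAlgebra p ∅) ⧸
        Ideal.map ((latticeRestrictHom p ∅).toRingHom.comp (heckeEvalForms p 2))
          (eisensteinIdeal p)) =
      eisensteinNumerator p := by
  have hpp : p.Prime := Fact.out
  refine red_main p (lbs_main p) ?_
  intro k f hk _ hcong
  by_cases hp5 : 5 ≤ p
  · refine cusp_congr_dvd p hp5 k f ?_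
    intro i hi
    obtain ⟨a, ha⟩ := hcong i hi
    refine ⟨a, ?_⟩
    rw [ha, glue_redSigma_eq p i hpp.ne_zero (by omega)]
    push_cast
    ring
  · have hp3 : p ≤ 3 := by
      have h4 : p ≠ 4 := by
        rintro rfl
        exact absurd hpp (by decide)
      omega
    have hf : f = 0 := cuspForm_eq_zero_of_le_three p hp3 f
    obtain ⟨a, ha⟩ := hcong 1 le_rfl
    have h1 : redSigma p 1 = 1 := by
      rw [glue_redSigma_eq p 1 hpp.ne_zero one_ne_zero]
      have hp1 : ¬ p ∣ 1 := fun h => hpp.ne_one (Nat.dvd_one.mp h)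
      simp only [sigmaP, Nat.divisors_one]
      rw [Finset.filter_singleton, if_pos hp1]
      simp
    have h0 : qCoeff (⇑f) 1 = 0 := by
      rw [hf]
      have : (⇑(0 : CuspForm (Gamma0 p) 2) : UpperHalfPlane → ℂ) = 0 := rfl
      rw [ModularFormClass.qCoeff, this, UpperHalfPlane.qExpansion_zero, map_zero]
    rw [h0, h1] at ha
    have ha' : (1 : ℤ) + (k : ℤ) * a = 0 := by exact_mod_cast ha.symm
    have hk1 : (k : ℤ) ∣ 1 := ⟨-a, by linarith⟩
    have : k = 1 := by
      have := Int.natAbs_dvd_natAbs.mpr hk1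
      simpa using this
    rw [this]
    exact one_dvd _

end Fermat.Agent.S16
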