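import Fermat.Statements.S18
import Fermat.Agent.S18.IfaceRed
import Fermat.Agent.S18.IfaceNormal
import Fermat.Agent.S18.NormalizeDesc
import Fermat.Agent.S18.Haupt9Rec
import Fermat.Agent.S18.CoreInstFinal
import Fermat.Agent.S18.SMInstMain

/-!
# S18: reduction modulo `ℓ` is injective on prime-to-`ℓ` torsion of `J₀(N)`

Chain (all in `Fermat/Agent/S18/`):
* `ifr_prime_order`: reduce to a class of prime order `p ≠ ℓ`;
* `ifn_normal_form`: the frozen reduction data give `Y, g'` in the function field of `X₀(N)`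
  with `div Y = p • D`, both Gauss units, and `red Y = (red g')^p`;
* `nrm_main'`: `Y` is a `p`-th power, given the core statement at an auxiliary level `N' = N * a2`
  (`a2 ∈ {4, 9}` the level of a Hauptmodul, `hp9_exists_hauptRec`);
* `cinst_main` + `sminst_main`: the core statement, from the smoothness of the two Hauptmodul
  charts (`(SM)`), proved by a discriminant count;
* `ifr_conclude`: `D` is principal.
-/

set_option autoImplicit false
open ModularCurve

namespace Fermat.Agent.S18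

open AlgebraicCurve in
theorem result (N : ℕ) [NeZero N] {ℓ : ℕ}
    [Fact ℓ.Prime] (hℓN : ¬ ℓ ∣ N) (A : ValuationSubring (AlgebraicClosure ℚ)) (hA : A.LiesOverPrime ℓ)
    (h : ModularCurve.ReductionInputsModL A N) (m : ℕ) (hm : ¬ ℓ ∣ m) (z : ModularCurve.JZero N)
    (hmz : m • z = 0) (hz : ModularCurve.reductionModL A N z = 0) :
    z = 0 := by
  by_contra hz0
  have hℓ : ℓ.Prime := Fact.out
  have hm0 : m ≠ 0 := fun h0 => hm (h0 ▸ dvd_zero ℓ)
  obtain ⟨p, hp, hpm, k, hk0, hpk⟩ := ifr_prime_order m hm0 z hz0 hmz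
  have hpℓ : p ≠ ℓ := fun hh => hm (hh ▸ hpm)
  have hzk : reductionModL A N (k • z) = 0 := by rw [map_nsmul, hz, smul_zero]
  obtain ⟨D, hD⟩ := QuotientAddGroup.mk_surjective (k • z)
  have hD' : Pic0.mk D = k • z := hD
  obtain ⟨Y, g', hY0, hg0, hord, hY, hg, hgne, hYg⟩ :=
    ifn_normal_form N A h p hp.pos D (by rw [hD']; exact hpk) (by rw [hD']; exact hzk)
  obtain ⟨a2, -, ⟨H⟩⟩ := hp9_exists_hauptRec ℓ
  have hℓN' : ¬ ℓ ∣ N * a2 := fun hd =>
    ((Nat.Prime.dvd_mul hℓ).mp hd).elim hℓN H.not_dvd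
  haveI : NeZero (N * a2) := ⟨mul_ne_zero (NeZero.ne N) H.pos.ne'⟩
  obtain ⟨g, hgY⟩ := nrm_main' N (N * a2) (dvd_mul_right _ _) hp hpℓ A hA hℓN'
    (cinst_final_of_SMInst (N * a2) hp hpℓ hℓN' H (dvd_mul_left _ _) A hA
      (sminst_main (N * a2) hℓN' H (dvd_mul_left _ _) A hA))
    Y g' hY0 hg0 (fun P => ⟨_, hord P⟩) hY hg hgne hYg
  have hfin : Pic0.mk D = 0 :=
    ifr_conclude D p hp.ne_zero Y g hY0 hord 1 (by rw [map_one, one_mul]; exact hgY)
  exact hk0 (hD' ▸ hfin)

end Fermat.Agent.S18
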