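import Fermat.Statements.S20
import Fermat.Agent.S20.FinalDim
import Fermat.Agent.S20.Comb

set_option autoImplicit false
open CuspForm

namespace Fermat.Agent.S20

theorem result (N : ℕ) [NeZero N] :
    (Module.finrank ℂ (CuspForm (CongruenceSubgroup.Gamma0 N) 2) : ℚ) = ModularCurve.genusFormula N := by
  have h := final_twelve_finrank_eq_genusNum N
  rw [genusNum, mu_eq_dedekindPsi, eps2_eq_nuTwo, eps3_eq_nuThree, epsInf_eq_cuspCount] at h
  have h' : (12 : ℚ) * (Module.finrank ℂ (CuspForm (CongruenceSubgroup.Gamma0 N) 2) : ℚ) =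
      12 + (ModularCurve.dedekindPsi N : ℚ) - 3 * (ModularCurve.nuTwo N : ℚ)
        - 4 * (ModularCurve.nuThree N : ℚ) - 6 * (ModularCurve.cuspCount N : ℚ) := by
    exact_mod_cast h
  rw [ModularCurve.genusFormula]
  linarith

end Fermat.Agent.S20
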