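import Fermat.Statements.S24
import Fermat.Agent.S24.Hurwitz
import Fermat.Agent.S24.Classify
import Fermat.Agent.S24.CosetsFinal
import Fermat.Agent.S24.Degree
import Fermat.Agent.S24.SysFin
import Fermat.Agent.S24.SysCusp

set_option autoImplicit false
open ModularCurve
open IntermediateField KaehlerDifferential AlgebraicCurve
open scoped MatrixGroups

namespace Fermat.Agent.S24

theorem result (N : ℕ) [NeZero N]
    [AlgebraicCurve.HasCanonicalDivisor (K := AlgebraicClosure ℚ) (F := ↥(ModularCurve.modularFunctionFieldBar N))] :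
    (AlgebraicCurve.genus (AlgebraicClosure ℚ) ↥(ModularCurve.modularFunctionFieldBar N) : ℚ)
      = ModularCurve.genusFormula N := by
  classical
  have hx := transcendental_jBar' N
  have _i0 := finiteDimensional_jBar' N
  have _ia : Algebra.IsAlgebraic (AlgebraicClosure ℚ)⟮jBar N⟯ ↥(modularFunctionFieldBar N) :=
    Algebra.IsAlgebraic.of_finite _ _
  -- the three special fibres
  obtain ⟨S₀, -, hS₀π⟩ := exists_laurentSystem_zero N
  obtain ⟨S₁, -, hS₁π⟩ := exists_laurentSystem_1728 N
  obtain ⟨Sᵢ, -, hSᵢπ⟩ := exists_laurentSystem_infty N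
  have hx1 := sf_transcendental_sub hx (1728 : AlgebraicClosure ℚ)
  have hxi := sf_transcendental_inv hx
  have _i1 := sf_finiteDimensional_sub (jBar N) (1728 : AlgebraicClosure ℚ)
  have _i2 := sf_finiteDimensional_inv (K := AlgebraicClosure ℚ) (jBar N)
  have hc0 := S₀.card_zeroPlaces hx
  have hc1 := S₁.card_zeroPlaces hx1
  have hci := Sᵢ.card_zeroPlaces hxi
  rw [hS₀π] at hc0
  rw [hS₁π] at hc1
  rw [hSᵢπ] at hci
  have hn : Module.finrank (AlgebraicClosure ℚ)⟮jBar N⟯ ↥(modularFunctionFieldBar N) =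
      dedekindPsi N := by
    rw [← S₀.card_eq, card_cosets]
  -- a nonzero differential
  have hex : ∃ ω : Ω[↥(modularFunctionFieldBar N)⁄AlgebraicClosure ℚ], ω ≠ 0 :=
    ⟨_, D_ne_zero_of_place (jBar N) (S₀.place (QuotientGroup.mk 1))⟩
  -- the generic fibres are unramified
  have hgen : ∀ a : AlgebraicClosure ℚ, a ≠ 0 → a ≠ 1728 →
      ∀ P ∈ zeroPlaces (AlgebraicClosure ℚ) (jBar N - algebraMap (AlgebraicClosure ℚ)
        ↥(modularFunctionFieldBar N) a),
      P.ord (jBar N - algebraMap (AlgebraicClosure ℚ) ↥(modularFunctionFieldBar N) a) = 1 := by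
    intro a ha0 ha1 P hP
    obtain ⟨S, hS⟩ := exists_laurentSystem_generic N a ha0 ha1
    have _i3 := sf_finiteDimensional_sub (jBar N) a
    exact S.ord_eq_one (sf_transcendental_sub hx a) hS P hP
  rw [AlgebraicCurve.genus, dif_pos hex]
  have hdeg := hw_degree (jBar N) hx 1728 (by norm_num) hgen _ hex.choose_spec
    (AlgebraicCurve.canonicalDivisorOf hex.choose_spec)
    (fun v => AlgebraicCurve.canonicalDivisorOf_apply _ v)
  rw [hdeg, hn, hc0, hc1, hci, orbCount_T]
  obtain ⟨g, hg⟩ := exists_genus_numerics N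
  have h2 := two_mul_orbCount_S N
  have h3 := three_mul_orbCount_ST N
  have hval : ((dedekindPsi N : ℤ) -
        orbCount (MulAction.toPerm (ModularGroup.S * ModularGroup.T) :
          Equiv.Perm (SL(2, ℤ) ⧸ CongruenceSubgroup.Gamma0 N))) +
      ((dedekindPsi N : ℤ) - orbCount (MulAction.toPerm ModularGroup.S :
          Equiv.Perm (SL(2, ℤ) ⧸ CongruenceSubgroup.Gamma0 N))) +
      (-(dedekindPsi N : ℤ) - cuspCount N) + 2 = 2 * g := by
    omega
  rw [hval]
  have hg2 : ((2 * (g : ℤ)).toNat / 2 : ℕ) = g := by omega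
  rw [hg2]
  unfold genusFormula
  have hg' : (12 * g + 3 * nuTwo N + 4 * nuThree N + 6 * cuspCount N : ℚ) =
      12 + dedekindPsi N := by
    exact_mod_cast hg
  linarith

end Fermat.Agent.S24
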