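import Fermat.Statements.S30
import Fermat.Agent.S29.CompareGenMain
import Fermat.Agent.S30.EigS30
import Fermat.Agent.S30.ZpAlg
import Fermat.Agent.S30.ZpInj
import Fermat.Agent.S30.LatticeFinal
import Fermat.Agent.S30.FrontAbs

set_option autoImplicit false
open Polynomial
open CuspForm

namespace Fermat.Agent.S30

open Fermat.Agent.S29 ModularCurve AlgebraicCurve

local notation "Qb" => AlgebraicClosure ℚ

theorem result :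
    ∀ (p : ℕ) [Fact p.Prime] (N : ℕ) [NeZero N] (S : Finset ℕ)
      (_hpS : p ∈ S) (_hNS : ∀ q : ℕ, q.Prime → q ∣ N → q ∈ S)
      (𝒪' : Type) [CommRing 𝒪'] [IsDomain 𝒪'] [IsDiscreteValuationRing 𝒪']
      [IsAdicComplete (IsLocalRing.maximalIdeal 𝒪') 𝒪'] [Finite (IsLocalRing.ResidueField 𝒪')]
      [CharZero 𝒪'] (_hp𝒪' : (p : 𝒪') ∈ IsLocalRing.maximalIdeal 𝒪')
      (χ : CuspForm.heckeAlgebra N 2 (↑S : Set ℕ) →+* 𝒪'),
      ∃ (𝒪'' : Type) (_ : CommRing 𝒪'') (_ : IsDomain 𝒪'') (_ : IsDiscreteValuationRing 𝒪'')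
        (_ : IsAdicComplete (IsLocalRing.maximalIdeal 𝒪'') 𝒪'')
        (_ : Finite (IsLocalRing.ResidueField 𝒪'')) (_ : CharZero 𝒪'')
        (_ : Algebra 𝒪' 𝒪'') (_ : Module.Finite 𝒪' 𝒪'') (_ : IsLocalHom (algebraMap 𝒪' 𝒪'')),
      Function.Injective (algebraMap 𝒪' 𝒪'') ∧
      ∃ ρ : GaloisRepAdic 𝒪'',
        (∀ (ℓ : ℕ) (hℓ : ℓ.Prime) (hℓN : ¬ ℓ ∣ N) (hℓS : ℓ ∉ (↑S : Set ℕ)),
          ∀ A : ValuationSubring (AlgebraicClosure ℚ), A.LiesOverPrime ℓ →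
            ∀ σ : AlgebraicClosure ℚ ≃ₐ[ℚ] AlgebraicClosure ℚ, A.IsFrobeniusAt σ ℓ →
              LinearMap.charpoly (ρ.ρ σ) =
                X ^ 2 - C (algebraMap 𝒪' 𝒪'' (χ (CuspForm.heckeAlgebra.T hℓ hℓN hℓS))) * X
                  + C ((ℓ : 𝒪''))) ∧
        (∀ q : ℕ, q.Prime → ¬ q ∣ N → q ≠ p → ρ.IsUnramifiedAt q) := by
  intro p _ N _ S hpS hNS 𝒪' _ _ _ _ _ _ hp𝒪' χ
  have hp : p.Prime := Fact.out
  have : NeZero p := ⟨hp.ne_zero⟩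
  have : Group.FG (CongruenceSubgroup.Gamma0 N) := egs_Gamma0_fg N
  obtain ⟨v, hv0, hvS, hTv⟩ := egx_s30 N S χ
  have hℓp : ∀ ℓ : ℕ, ℓ ∉ (↑S : Set ℕ) → ℓ ≠ p := by
    rintro ℓ hℓS rfl
    exact hℓS (Finset.mem_coe.mpr hpS)
  let ι : Type := {ℓ : ℕ // ℓ.Prime ∧ ¬ ℓ ∣ N ∧ ℓ ∉ (↑S : Set ℕ)}
  let Jn : ℕ → AddSubgroup (JZero N) :=
    fun n => Pic0.torsion Qb (modularFunctionFieldBar N) (p ^ n)
  have hJn : ∀ (n : ℕ) (y : JZero N), y ∈ Jn n ↔ p ^ n • y = 0 :=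
    fun n y => tlv_mem_torsion N (p ^ n) y
  obtain ⟨V, _, _, _, _, _, ρ, h1, h2, h3⟩ := frt_abs p
    (X := Additive (CongruenceSubgroup.Gamma0 N)) (redS N)
    (J := JZero N) (G := Qb ≃ₐ[ℚ] Qb) Jn hJn
    (fun n => cmgPhi N (p ^ n)) (fun n => cmg_injective N (p ^ n))
    (fun n ψ hψ => cmg_surj N (p ^ n) ψ hψ)
    (fun n y y' h x => cmg_level_pow N p n y y' h x)
    (ι := ι) (K := fun i => Option (Fin i.1))
    (fun i k x => Additive.ofMul (heckeTrCoc i.2.1 i.2.2.1 (Additive.toMul x) k))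
    (by
      intro i ψ x y
      rw [← heckeTr_apply i.2.1 i.2.2.1 ψ (Additive.toMul (x + y)),
        ← heckeTr_apply i.2.1 i.2.2.1 ψ (Additive.toMul x),
        ← heckeTr_apply i.2.1 i.2.2.1 ψ (Additive.toMul y)]
      exact map_add (heckeTr N i.1 ℤ_[p] ψ) x y)
    (fun i => (heckeOperatorBar N ⟨i.1, i.2.1⟩).toAddMonoidHom)
    (by
      intro i n y y' h x
      have h' := cmg_hecke_rel N (p ^ n) i.2.1 i.2.2.1 y y' h
      rw [h']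
      exact heckeTr_apply i.2.1 i.2.2.1 (cmgPhi N (p ^ n) y) (Additive.toMul x))
    (by
      intro i g n y hy
      exact tlv_hecke_galois N hp i.2.1 i.2.2.1 (hℓp i.1 i.2.2.2) n g y ((hJn n y).mp hy))
    (zpaHom p 𝒪' hp𝒪') (zpi_injective p _)
    (fun i => χ (CuspForm.heckeAlgebra.T i.2.1 i.2.2.1 i.2.2.2)) v hv0 hvS
    (by
      intro i x
      exact hTv i.1 i.2.1 i.2.2.1 i.2.2.2 (Additive.toMul x))
  exact latf_s30 p N S hpS 𝒪' hp𝒪' χ Jn hJn (fun n => cmg_finite N (p ^ n)) ρ h1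
    (fun g ℓ hℓ hℓN hℓS h => h2 g ⟨ℓ, hℓ, hℓN, hℓS⟩ ℓ h) h3

end Fermat.Agent.S30
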