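import Fermat.Statements.S34
import Fermat.Agent.S34.Transfer
import Fermat.Agent.S34.KummerJ
import Fermat.Agent.S34.InstFinal
import Fermat.Agent.S29.CompareGenMain
import Fermat.Agent.S18.Haupt9Rec

set_option autoImplicit false
open IsLocalRing
open CuspForm CuspForm.HeckeGaloisRepDatum

namespace Fermat.Agent.S34

open ModularCurve AlgebraicCurve

local notation "Qb" => AlgebraicClosure ℚ

theorem result
    {𝒪 : Type} [CommRing 𝒪] [IsDomain 𝒪] [IsDiscreteValuationRing 𝒪]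
    [IsAdicComplete (maximalIdeal 𝒪) 𝒪] [Finite (ResidueField 𝒪)] [CharZero 𝒪]
    {p : ℕ} (hp : p.Prime) (hp𝒪 : (p : 𝒪) ∈ maximalIdeal 𝒪)
    {N : ℕ} [NeZero N] {S : Finset ℕ} (hpS : p ∈ S) (hNS : ∀ q : ℕ, q.Prime → q ∣ N → q ∈ S)
    {θ : CuspForm.heckeAlgebra N 2 (↑S : Set ℕ) →+* ResidueField 𝒪}
    {T : Type} [CommRing T] [IsLocalRing T] [IsNoetherianRing T]
    [IsAdicComplete (maximalIdeal T) T] [Algebra 𝒪 T] [IsLocalHom (algebraMap 𝒪 T)]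
    [Module.Finite 𝒪 T] [Module.Free 𝒪 T]
    (H : CuspForm.HeckeGaloisRepDatum N (↑S : Set ℕ) 𝒪 θ T)
    (q : ℕ) (hq : q.Prime) (hqp : q ≠ p) (hqN : q ∣ N) (hq2 : ¬ q ^ 2 ∣ N) :
    H.ρ.IsUnipotentOnInertiaAt q := by
  haveI : Fact q.Prime := ⟨hq⟩
  obtain ⟨a2, ha2, ⟨Hr⟩⟩ := Fermat.Agent.S18.hp9_exists_hauptRec q
  obtain ⟨a, k, haP, hak⟩ : ∃ a k : ℕ, a.Prime ∧ a2 = a ^ k := by
    rcases ha2 with rfl | rfl
    · exact ⟨2, 2, Nat.prime_two, rfl⟩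
    · exact ⟨3, 2, Nat.prime_three, rfl⟩
  obtain ⟨N', hN'⟩ := hqN
  have hN'0 : N' ≠ 0 := by
    rintro rfl
    rw [mul_zero] at hN'
    exact NeZero.ne N hN'
  have hqN' : ¬ q ∣ N' := by
    rintro ⟨r, rfl⟩
    exact hq2 ⟨r, by rw [hN']; ring⟩
  have hM0 : ¬ q ∣ a2 * N' := fun h =>
    (hq.dvd_mul.mp h).elim Hr.not_dvd hqN'
  haveI : NeZero (a2 * N') := ⟨Nat.mul_ne_zero Hr.pos.ne' hN'0⟩
  have hlev : a2 * N' * q = a ^ k * N := by rw [hN', ← hak]; ring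
  refine s34t_main hp hp𝒪 hpS hNS H
    (Fermat.Agent.S31.trc_cmp_of_gen N p hp.ne_zero (fun m hm => by
      have : NeZero m := ⟨hm⟩
      obtain ⟨Φ, hinj, hS, -, hT⟩ := Fermat.Agent.S29.cmg_main N m
      exact ⟨Φ, hinj, hS, hT⟩)) q hq hqp 1 one_ne_zero ?_
  intro n A hA σ hσ x hx
  refine s34t_descent N a k haP p hp.ne_zero 1 σ ?_ n x hx
  have key : ∀ (n' : ℕ) (y : JZero (a2 * N' * q)), p ^ n' • y = 0 →
      1 • (σ • σ • y - (σ • y + σ • y) + y) = 0 := by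
    intro n' y hy
    haveI : NeZero (a2 * N' * q) := ⟨Nat.mul_ne_zero (NeZero.ne _) hq.ne_zero⟩
    rw [one_nsmul]
    exact s34h_main (a2 * N' * q) (p ^ n') (pow_ne_zero n' hp.ne_zero) σ
      (s34im_final (a2 * N') q hM0 Hr (dvd_mul_right a2 N') A hA σ hσ (p ^ n')
        (pow_ne_zero n' hp.ne_zero)
        (Nat.Coprime.pow_left n' ((Nat.coprime_primes hp hq).mpr hqp.symm)))
      y hy
  rw [← hlev]
  exact key

end Fermat.Agent.S34
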