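import Fermat.Statements.S37
import Fermat.Agent.S37.Torsion
import Fermat.Agent.S37.JRingDefs
import Fermat.Agent.S37.JRingGal2
import Fermat.Agent.S37.JRingESK2
import Fermat.Agent.S37.JRingK3Main
import Fermat.Agent.S37.Hcore
import Fermat.Agent.S18.SMInstMain

set_option autoImplicit false
set_option linter.style.haveILetI false
open ModularCurve AlgebraicCurve

namespace Fermat.Agent.S37

theorem result (N p : ℕ) [NeZero N] (hcomm : ModularCurve.HeckeOperatorsCommuteBar N) : letI := ModularCurve.heckeModuleBar N; ∀ (_ : SMulCommClass (AlgebraicClosure ℚ ≃ₐ[ℚ] AlgebraicClosure ℚ) ModularCurve.HeckeAlg (ModularCurve.JZero N)), ModularCurve.SpecializationExists (K := ℚ) (L := AlgebraicClosure ℚ) N p (ModularCurve.JZero N) :=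
  s37_of_redDiv N p hcomm
    (fun ℓ hℓ _ => haveI : NeZero ℓ := ⟨hℓ.ne_zero⟩; hki_heckeInputsAlong N ℓ)
    (fun ℓ hℓ hN A hA =>
      haveI : NeZero ℓ := ⟨hℓ.ne_zero⟩
      haveI : Fact ℓ.Prime := ⟨hℓ⟩
      s37_redDiv_of_classMap N ℓ hℓ A hA
        (s37_hcore_of_SMInst N hℓ hN A hA
          (fun N' _ _ H ha2 hℓN' => Fermat.Agent.S18.sminst_main N' hℓN' H ha2 A hA))
        (jrCls A (Fermat.Agent.S24.jBar N)) (jrg_k1 N hℓ hN A hA) (jres_K2 N ℓ hℓ hN A hA)
        (jrc_k3ab N hℓ hN A hA))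

end Fermat.Agent.S37
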