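import Fermat.Statements.S42
import Fermat.Agent.S29
import Fermat.Agent.S29.S42Field

set_option autoImplicit false
open FreyPackage

namespace Fermat.Agent.S42

theorem result (P : FreyPackage) :
    ∀ M : ℕ, 0 < M → P.EigenformResidualAttachmentAt M := by
  intro M _
  exact Fermat.Agent.S29.s42f_of_s29 P M (fun hg _ _ _ φ => by
    obtain ⟨ρ, h, -⟩ := Fermat.Agent.S29.result hg P.pp φ
    exact ⟨ρ, h⟩)

end Fermat.Agent.S42
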