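-- Statement S49: the Deligne-Serre lifting lemma for a lattice-realised formal eigensystem.
import Fermat.Statements.S49
import Fermat.Agent.S49.Forms
import Fermat.Agent.S49.Eigensystem

set_option autoImplicit false
open CuspForm EisensteinWeightOne CongruenceSubgroup ModularFormClass
open FLT FLT.AbstractIntegralStructure

namespace Fermat.Agent.S49

theorem result
    {N : ℕ} [NeZero N] (h : CuspForm.HasIntegralBasis N) {a : ℕ → ℤ}
    (heig : FormalHecke.IsEigensystem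
      (fun ℓ => if ℓ ∣ N then 0 else ((chiNegThree ℓ : ℤ) : ℤ)) a)
    (hreal : CuspForm.IsLatticeRealized N a) :
    ∃ (f : CuspForm (Gamma0 N) 2) (_ : f.IsNormalizedEigenform)
      (𝔪' : Ideal (integralClosure ℤ ℂ)), 𝔪'.IsMaximal ∧
      ((3 : ℕ) : integralClosure ℤ ℂ) ∈ 𝔪' ∧
      ∀ (ℓ : ℕ) (_ : ℓ.Prime) (_ : ¬ ℓ ∣ N),
        ∃ c : integralClosure ℤ ℂ, (c : ℂ) = ModularFormClass.qCoeff f ℓ ∧
          c - (a ℓ : integralClosure ℤ ℂ) ∈ 𝔪' := by
  classical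
  obtain ⟨f₀, -, af, haf, hdiv⟩ := hreal
  have hcong : ∀ n, (3 : ℤ) ∣ af n - a n := fun n => by
    have := dvd_add (hdiv n) (three_dvd_bridgeProduct_sub a n)
    simpa using this
  have hf₀ : f₀ ∈ CuspForm.intLattice N 2 :=
    (mem_intLattice_iff' f₀).mpr fun n => ⟨af n, (haf n).symm⟩
  obtain ⟨v, χ, 𝔪, hv, h𝔪, hχ, hcomap⟩ :=
    exists_eigenform_data h heig (f₀ := f₀) (af := af) haf hcong
  -- the eigenvalues
  let lam : ℕ → ℂ := fun ℓ =>
    if hℓ : ℓ.Prime then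
      (if hN : ℓ ∣ N then
        ((χ (heckeAlgebra.U hℓ hN (Set.notMem_empty ℓ)) : integralClosure ℤ ℂ) : ℂ)
      else ((χ (heckeAlgebra.T hℓ hN (Set.notMem_empty ℓ)) : integralClosure ℤ ℂ) : ℂ))
    else 0
  let e : ℕ → ℂ := fun ℓ => if ℓ ∣ N then 0 else (ℓ : ℂ)
  let b : ℕ → ℂ := fun n => qC N 2 n v
  have hrec : ∀ ℓ : ℕ, ℓ.Prime → ∀ n : ℕ,
      b (ℓ * n) + e ℓ * (if ℓ ∣ n then b (n / ℓ) else 0) = lam ℓ * b n := by
    intro ℓ hℓ n
    by_cases hN : ℓ ∣ N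
    · have h1 := hχ (heckeAlgebra.U hℓ hN (Set.notMem_empty ℓ))
      have h2 := congrArg (qC N 2 n) h1
      rw [heckeAlgebra.coe_U, qC_heckeU hℓ, map_smul, smul_eq_mul] at h2
      simp only [lam, e, dif_pos hℓ, dif_pos hN, if_pos hN, zero_mul, add_zero, b]
      rw [mul_comm ℓ n]
      exact h2
    · have h1 := hχ (heckeAlgebra.T hℓ hN (Set.notMem_empty ℓ))
      have h2 := congrArg (qC N 2 n) h1
      rw [heckeAlgebra.coe_T, qC_heckeT hℓ, map_smul, smul_eq_mul] at h2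
      simp only [lam, e, dif_pos hℓ, dif_neg hN, if_neg hN, b]
      rw [mul_comm ℓ n, ← h2]
      split_ifs <;> ring
  have hb0 : b 0 = 0 := qC_zero_index N 2 v
  have hb1 : b 1 ≠ 0 := by
    intro hb1
    exact hv (eq_zero_of_qC N 2 v (eq_zero_of_hecke_relations hrec hb0 hb1))
  have hlam : ∀ ℓ, ℓ.Prime → lam ℓ = (b 1)⁻¹ * b ℓ := by
    intro ℓ hℓ
    have h1 := hrec ℓ hℓ 1
    have hnd : ¬ ℓ ∣ 1 := fun hd => hℓ.one_lt.ne' (Nat.dvd_one.mp hd)
    rw [mul_one, if_neg hnd, mul_zero, add_zero] at h1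
    rw [h1]
    field_simp
  -- the normalised eigenform
  let f : CuspForm (Gamma0 N) 2 := (b 1)⁻¹ • v
  have hf : ∀ n, ModularFormClass.qCoeff f n = (b 1)⁻¹ * b n := fun n => by
    show qC N 2 n ((b 1)⁻¹ • v) = _
    rw [map_smul, smul_eq_mul]
  have hsys : FormalHecke.IsEigensystem e (fun n => ModularFormClass.qCoeff f n) := by
    refine ⟨by show ModularFormClass.qCoeff f 1 = 1; rw [hf]; exact inv_mul_cancel₀ hb1, ?_⟩
    intro ℓ hℓ n
    simp only [hf]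
    have h1 := hrec ℓ hℓ n
    rw [← hlam ℓ hℓ]
    split_ifs at h1 ⊢ <;> linear_combination (b 1)⁻¹ * h1
  refine ⟨f, ⟨hsys.1, mul_of_coprime_of_isEigensystem hsys, ?_, ?_⟩, 𝔪, h𝔪, ?_, ?_⟩
  · intro p r hp hpN
    have h1 := prime_pow_of_isEigensystem hsys p r hp
    simpa [e, hpN] using h1
  · intro p r hp hpN
    have h1 := prime_pow_of_isEigensystem hsys p r hp
    simpa [e, hpN] using h1
  · have h3 := three_mem_residualIdeal hf₀
    rw [← hcomap, Ideal.mem_comap] at h3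
    have h5 : χ 3 = ((3 : ℕ) : integralClosure ℤ ℂ) := by
      rw [← map_natCast χ 3]
      rfl
    rw [← h5]
    exact h3
  · intro ℓ hℓ hℓN
    refine ⟨χ (heckeAlgebra.T hℓ hℓN (Set.notMem_empty ℓ)), ?_, ?_⟩
    · rw [hf, ← hlam ℓ hℓ]
      simp only [lam, dif_pos hℓ, dif_neg hℓN]
    · have h4 := sub_int_mem_residualIdeal (heckeAlgebra.T hℓ hℓN (Set.notMem_empty ℓ)) (a ℓ)
        (third_heckeT_sub_mem heig haf hcong hℓ hℓN)
      rw [← hcomap, Ideal.mem_comap, map_sub] at h4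
      simpa using h4

end Fermat.Agent.S49
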