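import Fermat.Statements.S51
import Fermat.Agent.S51.Fiber
import Fermat.Agent.S51.X015
import Fermat.Agent.S51.NoSemistable
import Fermat.Agent.S51.GaloisGlue

set_option autoImplicit false
open WeierstrassCurve WeierstrassCurve.Affine WeierstrassCurve.Affine.Point
open CuspForm ModularFormClass UpperHalfPlane
open WeierstrassCurve

namespace Fermat.Agent.S51

/-- The algebraic closure of the rationals is Galois over the rationals, for the rational-algebra
structure carried by every characteristic-zero division ring (the one used in the statement). -/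
theorem isGalois_rat_algClosure :
    @IsGalois ℚ _ (AlgebraicClosure ℚ) _ DivisionRing.toRatAlgebra := by
  have h : (DivisionRing.toRatAlgebra : Algebra ℚ (AlgebraicClosure ℚ)) =
      AlgebraicClosure.instAlgebra ℚ := Subsingleton.elim _ _
  rw [h]
  infer_instance

theorem result (W : WeierstrassCurve ℤ) (hΔ : W.Δ ≠ 0) (hW : W.IsSemistableModel) : W.ModRepIsIrreducible 3 ∨ W.ModRepIsIrreducible 5 := by
  set E : WeierstrassCurve ℚ := W.map (Int.castRingHom ℚ) with hE
  have hEΔ : E.Δ ≠ 0 := by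
    rw [hE, WeierstrassCurve.map_Δ]
    simpa using hΔ
  have hc4 : E.c₄ = (W.c₄ : ℚ) := by rw [hE, WeierstrassCurve.map_c₄]; rfl
  have hD : E.Δ = (W.Δ : ℚ) := by rw [hE, WeierstrassCurve.map_Δ]; rfl
  have hGal := isGalois_rat_algClosure
  by_contra hcon
  rw [not_or] at hcon
  obtain ⟨h3, h5⟩ := hcon
  unfold WeierstrassCurve.ModRepIsIrreducible GaloisRepIsIrreducible at h3 h5
  have n3 := nontrivial_three (K := AlgebraicClosure ℚ) E hEΔ
  have n5 := nontrivial_five (K := AlgebraicClosure ℚ) E hEΔ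
  rw [not_and] at h3 h5
  have h3' := h3 n3
  have h5' := h5 n5
  push Not at h3' h5'
  obtain ⟨N3, hN3, hN3b, hN3t⟩ := h3'
  obtain ⟨N5, hN5, hN5b, hN5t⟩ := h5'
  obtain ⟨τ, hτ0, hτ⟩ := reducible_three E hEΔ N3 hN3 hN3b hN3t
  obtain ⟨s, hs0, hs⟩ := reducible_five E hEΔ N5 hN5 hN5b hN5t
  have hc40 : E.c₄ ≠ 0 := by
    intro h0
    rw [h0] at hs
    have h1 : E.Δ * (s ^ 2 + 10 * s + 5) ^ 3 = 0 := by
      rw [← hs]; ring
    rcases mul_eq_zero.mp h1 with h | h
    · exact hEΔ h
    · have h2 : s ^ 2 + 10 * s + 5 = 0 := by simpa using h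
      exact not_sq_twenty (s + 5) (by linear_combination h2)
  have hrel : s * (τ + 27) * (τ + 3) ^ 3 = τ * (s ^ 2 + 10 * s + 5) ^ 3 := by
    have h1 : E.Δ * (E.c₄ ^ 3 *
        (s * (τ + 27) * (τ + 3) ^ 3 - τ * (s ^ 2 + 10 * s + 5) ^ 3)) = 0 := by
      linear_combination (-(E.c₄ ^ 3 * s)) * hτ + (E.c₄ ^ 3 * τ) * hs
    rcases mul_eq_zero.mp h1 with h2 | h2
    · exact absurd h2 hEΔ
    · rcases mul_eq_zero.mp h2 with h3 | h3
      · exact absurd (pow_eq_zero_iff (by norm_num) |>.mp h3) hc40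
      · linear_combination h3
  have hτv := tau_values τ s hτ0 hs0 hrel
  refine no_semistable W.c₄ W.Δ hΔ hW τ hτv ?_
  rw [← hc4, ← hD]
  exact hτ

end Fermat.Agent.S51
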