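-- Statement S57 (patching descent step). Proof: the module `L.N` is free over the power series
-- ring because it has maximal depth (Fermat.Agent.Lib.RegularFree), then descend to `M`.
import Fermat.Statements.S57
import Fermat.Agent.Lib.MvPowerSeriesRegular
import Fermat.Agent.S57.Descent

set_option autoImplicit false
set_option linter.style.haveILetI false
open Algebra Algebra.PatchingLevel

namespace Fermat.Agent.S57

open MvPowerSeries RingTheory.Sequence IsLocalRing
open Fermat.Agent.Lib.MvPowerSeriesRegular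

/-- The patching module `L.N` is free over the power series ring. -/
theorem free_N
    {𝒪 : Type} [CommRing 𝒪] [IsDomain 𝒪] [IsDiscreteValuationRing 𝒪]
    {r : ℕ} {R : Type} [CommRing R] [Algebra 𝒪 R]
    {M : Type} [AddCommGroup M] [Module R M] [Nontrivial M]
    (L : Algebra.PatchingLevel 𝒪 r R M ⊥) :
    Module.Free (MvPowerSeries (Fin r) 𝒪) L.N := by
  classical
  let Φ : (Fin L.d → MvPowerSeries (Fin r) 𝒪) →+ L.N :=
    { toFun := fun c => ∑ i, L.φ (c i) • L.b i
      map_zero' := by simp
      map_add' := fun c c' => by simp [add_smul, Finset.sum_add_distrib] }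
  have hΦinj : Function.Injective Φ := (injective_iff_map_eq_zero Φ).mpr fun c hc => by
    funext i
    have := (L.b_rel c).mp hc i
    simpa using this
  have hΦsurj : Function.Surjective Φ := fun x => by
    obtain ⟨c, hc⟩ := L.b_span x
    exact ⟨c, hc.symm⟩
  let e : (Fin L.d → MvPowerSeries (Fin r) 𝒪) ≃+ L.N := AddEquiv.ofBijective Φ ⟨hΦinj, hΦsurj⟩
  have he : ∀ (a : MvPowerSeries (Fin r) 𝒪) (c : Fin L.d → MvPowerSeries (Fin r) 𝒪),
      e (a • c) = L.φ a • e c := by
    intro a c
    show ∑ i, L.φ ((a • c) i) • L.b i = L.φ a • ∑ i, L.φ (c i) • L.b i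
    simp [Finset.smul_sum, mul_smul]
  obtain ⟨ϖ, hϖ⟩ := IsDiscreteValuationRing.exists_irreducible 𝒪
  have hmax : maximalIdeal 𝒪 = Ideal.span {ϖ} := hϖ.maximalIdeal_eq
  have hreg : IsSMulRegular 𝒪 ϖ := (IsRegular.of_ne_zero hϖ.ne_zero).left.isSMulRegular
  set xs : List (MvPowerSeries (Fin r) 𝒪) :=
    (List.finRange r).map (X : Fin r → MvPowerSeries (Fin r) 𝒪) ++ [C ϖ] with hxs
  have hR : IsRegular (MvPowerSeries (Fin r) 𝒪) xs :=
    isRegular_X_append_C _ (List.nodup_finRange r) List.mem_finRange ϖ hreg hmax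
  have hm : Ideal.ofList xs = maximalIdeal (MvPowerSeries (Fin r) 𝒪) :=
    ofList_X_append_C_eq_maximalIdeal _ List.mem_finRange ϖ hmax
  have hmaxI : (Ideal.ofList xs).IsMaximal := hm ▸ maximalIdeal.isMaximal _
  refine free_of_semilinear_equiv (L.φ : MvPowerSeries (Fin r) 𝒪 →+* MvPowerSeries (Fin r) 𝒪)
    L.N L.d e he xs hR.toIsWeaklyRegular hmaxI xs hR hm rfl ?_
  intro x hx
  rw [hxs, List.mem_append, List.mem_map, List.mem_singleton] at hx
  rcases hx with ⟨i, -, rfl⟩ | rfl
  · rw [mem_maximalIdeal, mem_nonunits_iff]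
    intro hu
    have h0 : IsUnit (L.ψ (L.φ (X i))) := hu.map L.ψ
    rw [L.ψ_φ_X, isUnit_zero_iff] at h0
    obtain ⟨m, m', hmm⟩ := exists_pair_ne M
    exact hmm (by rw [← one_smul R m, ← one_smul R m', ← h0, zero_smul, zero_smul])
  · have h1 : L.φ (C ϖ) = C ϖ := by
      rw [c_eq_algebraMap]
      exact L.φ.commutes ϖ
    show L.φ (C ϖ) ∈ maximalIdeal (MvPowerSeries (Fin r) 𝒪)
    rw [h1, ← hm]
    exact Ideal.subset_span (by simp [hxs])

theorem result
    {𝒪 : Type} [CommRing 𝒪] [IsDomain 𝒪] [IsDiscreteValuationRing 𝒪]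
    {r : ℕ} {R : Type} [CommRing R] [Algebra 𝒪 R]
    {M : Type} [AddCommGroup M] [Module R M] [Nontrivial M]
    (L : Algebra.PatchingLevel 𝒪 r R M ⊥) :
    Module.Free R M ∧ Module.annihilator R M = ⊥ ∧
      RingHom.ker L.ψ = Ideal.span (Set.range fun i : Fin r => L.φ (MvPowerSeries.X i)) := by
  classical
  set I : Ideal (MvPowerSeries (Fin r) 𝒪) :=
    Ideal.span (Set.range fun i : Fin r => L.φ (MvPowerSeries.X i)) with hI
  haveI : Module.Free (MvPowerSeries (Fin r) 𝒪) L.N := free_N L
  haveI : Module.Finite (MvPowerSeries (Fin r) 𝒪) L.N := by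
    refine Module.Finite.of_surjective (Fintype.linearCombination (MvPowerSeries (Fin r) 𝒪) L.b) ?_
    intro x
    obtain ⟨c, hc⟩ := L.b_span x
    exact ⟨fun i => L.φ (c i), by rw [Fintype.linearCombination_apply, hc]⟩
  let β := Module.finBasis (MvPowerSeries (Fin r) 𝒪) L.N
  set n := Module.finrank (MvPowerSeries (Fin r) 𝒪) L.N with hn
  have hπ0 : L.π 0 = 0 := map_zero L.π
  haveI : Nontrivial L.N := by
    obtain ⟨m, m', hmm⟩ := exists_pair_ne M
    obtain ⟨x, rfl⟩ := L.π_surjective m
    obtain ⟨x', rfl⟩ := L.π_surjective m'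
    exact ⟨x, x', fun h => hmm (by rw [h])⟩
  have hnpos : 0 < n := by
    rcases Nat.eq_zero_or_pos n with h0 | h0
    · exfalso
      obtain ⟨x, x', hxx⟩ := exists_pair_ne L.N
      have hz : ∀ y : L.N, y = 0 := fun y => by
        rw [← β.sum_repr y]
        exact Finset.sum_eq_zero fun j _ => absurd (h0 ▸ j.2 : (j : ℕ) < 0) (Nat.not_lt_zero _)
      exact hxx ((hz x).trans (hz x').symm)
    · exact h0
  -- coordinates of elements of `I • ⊤`
  have key : ∀ c : Fin n → MvPowerSeries (Fin r) 𝒪,
      (∑ j, c j • β j) ∈ I • (⊤ : Submodule (MvPowerSeries (Fin r) 𝒪) L.N) ↔ ∀ j, c j ∈ I := by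
    intro c
    constructor
    · intro h j
      have hcoord : ∀ x ∈ I • (⊤ : Submodule (MvPowerSeries (Fin r) 𝒪) L.N), β.coord j x ∈ I := by
        intro x hx
        refine Submodule.smul_induction_on hx ?_ ?_
        · intro a ha y _
          rw [map_smul, smul_eq_mul]
          exact I.mul_mem_right _ ha
        · intro y z hy hz
          rw [map_add]
          exact I.add_mem hy hz
      have := hcoord _ h
      simpa [Module.Basis.coord_apply, Finsupp.single_apply] using this
    · intro h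
      exact Submodule.sum_mem _ fun j _ => Submodule.smul_mem_smul (h j) Submodule.mem_top
  have hker : RingHom.ker L.ψ = I := by
    apply le_antisymm
    · intro f hf
      let j0 : Fin n := ⟨0, hnpos⟩
      have h1 : L.π (f • β j0) = 0 := by
        rw [L.π_smul, (RingHom.mem_ker).mp hf, zero_smul]
      have h2 := (L.ker_π _).mp h1
      have h3 : (∑ j, (if j = j0 then f else 0) • β j) = f • β j0 := by simp
      have h4 := (key (fun j => if j = j0 then f else 0)).mp (by rw [h3]; exact h2) j0
      simpa using h4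
    · rw [hI, Ideal.span_le]
      rintro _ ⟨i, rfl⟩
      exact (RingHom.mem_ker).mpr (L.ψ_φ_X i)
  -- the basis of `M`
  have hπsum : ∀ c : Fin n → MvPowerSeries (Fin r) 𝒪,
      L.π (∑ j, c j • β j) = ∑ j, L.ψ (c j) • L.π (β j) := by
    intro c
    rw [map_sum]
    exact Finset.sum_congr rfl fun j _ => L.π_smul _ _
  have hli : LinearIndependent R (fun j => L.π (β j)) := by
    rw [Fintype.linearIndependent_iff]
    intro g hg j
    choose c hc using fun j => L.ψ_surjective (g j)
    have h1 : L.π (∑ j, c j • β j) = 0 := by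
      rw [hπsum]
      simpa [hc] using hg
    have h2 := (key c).mp ((L.ker_π _).mp h1) j
    rw [← hker] at h2
    rw [← hc j]
    exact (RingHom.mem_ker).mp h2
  have hsp : ⊤ ≤ Submodule.span R (Set.range fun j => L.π (β j)) := by
    intro m _
    obtain ⟨x, rfl⟩ := L.π_surjective m
    rw [← β.sum_repr x, hπsum]
    exact Submodule.sum_mem _ fun j _ =>
      Submodule.smul_mem _ _ (Submodule.subset_span ⟨j, rfl⟩)
  have hfree : Module.Free R M := Module.Free.of_basis (Module.Basis.mk hli hsp)
  refine ⟨hfree, ?_, hker⟩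
  haveI := hfree
  exact Module.annihilator_eq_bot.mpr inferInstance

end Fermat.Agent.S57
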