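-- Statement S58 (row 52): level lowering to the conductor level for a semistable modular model.
-- The statement below is byte-identical to the frozen statement WeierstrassCurve.FermatFrozen.S58.
import Fermat.Statements.S58
import Fermat.Agent.S58.TopFin
import Fermat.Agent.S58.GoodFin
import Fermat.Agent.S58.EIField
import Fermat.Agent.S58.NoUnitDisc
import Fermat.Agent.S58.RedGalQ
import Fermat.Agent.S58.NodeFixOf
import Fermat.Agent.S58.NodeRat

set_option autoImplicit false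
set_option autoImplicit false
open WeierstrassCurve

namespace Fermat.Agent.S58

theorem result
    (W : WeierstrassCurve ℤ) (hss : W.IsSemistableModel) (N : ℕ)
    (p : ℕ) [Fact p.Prime] (hp2 : p ≠ 2) (hirr : W.ModRepIsIrreducible p)
    (hp2N : ¬ p ^ 2 ∣ N)
    (hN : W.IsModularModelOfLevel N) (hbad : ∀ ℓ : ℕ, ℓ.Prime → (ℓ : ℤ) ∣ W.Δ → ℓ ∣ N)
    (hN3 : ∀ q : ℕ, q.Prime → ¬ q ^ 3 ∣ N) :
    W.IsModularModelOfLevel W.conductorLevel := by
  have hΔ : W.Δ ≠ 0 := s58ab_disc_ne_zero W N (s58m1_ne_zero hN3) hbad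
  have hfix := fun (q : ℕ) (hq : q.Prime) (hqΔ : (q : ℤ) ∣ W.Δ) (hqc : ¬ (q : ℤ) ∣ W.c₄)
      (lam : ℕ) (hlam : lam.Prime) (hlq : lam ≠ q) (n : ℕ)
      (A : ValuationSubring (AlgebraicClosure ℚ)) (hA : A.LiesOverPrime q) =>
    s58nfo_fix (fun V α β x0 y0 hαβ h1 h2 h3 h4 h6 m hm =>
      s58nr_exists_order V α β x0 y0 hαβ h1 h2 h3 h4 h6 m hm) W hΔ hq hqΔ hqc hlam hlq n A hA
  exact s58tf_main W hss N hN hbad hN3 (s58ta_false W) (s58rg_quad W) (s58rg_unr W) hfix
    (s58ef_fix W) (s58m5f_h5 W hss (s58rg_quad W) hfix (s58ef_fix W))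

end Fermat.Agent.S58
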